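import Mathlib
import Fermat.Prelude.Def_FormalHecke_Eigensystem
import Fermat.Prelude.Def_FLTPrelim_Modularity

set_option autoImplicit false

namespace Fermat.Agent.S49.Recursive

variable {R : Type*} [CommRing R]

theorem eig_prime_mul {e a : ℕ → R} (h : FormalHecke.IsEigensystem e a) {ℓ : ℕ} (hℓ : ℓ.Prime)
    (n : ℕ) : a (ℓ * n) = a ℓ * a n - e ℓ * (if ℓ ∣ n then a (n / ℓ) else 0) := by
  have := h.2 ℓ hℓ n
  rw [← this]; ring

theorem eig_prime_mul_of_not_dvd {e a : ℕ → R} (h : FormalHecke.IsEigensystem e a) {ℓ : ℕ}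
    (hℓ : ℓ.Prime) {n : ℕ} (hn : ¬ ℓ ∣ n) : a (ℓ * n) = a ℓ * a n := by
  rw [eig_prime_mul h hℓ n, if_neg hn]; ring

theorem eig_prime_mul_mul {e a : ℕ → R} (h : FormalHecke.IsEigensystem e a) {ℓ : ℕ}
    (hℓ : ℓ.Prime) (n : ℕ) : a (ℓ * (ℓ * n)) = a ℓ * a (ℓ * n) - e ℓ * a n := by
  rw [eig_prime_mul h hℓ (ℓ * n), if_pos (dvd_mul_right ℓ n),
    Nat.mul_div_cancel_left n hℓ.pos]

theorem eig_mul_of_coprime {e a : ℕ → R} (h : FormalHecke.IsEigensystem e a) :
    ∀ m n : ℕ, m.Coprime n → a (m * n) = a m * a n := by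
  intro m
  induction m using Nat.strong_induction_on with
  | _ m ih =>
    intro n hmn
    rcases Nat.eq_zero_or_pos m with rfl | hmpos
    · have hn : n = 1 := by simpa using hmn
      subst hn
      rw [h.1]; simp
    rcases Nat.eq_or_lt_of_le (Nat.succ_le_of_lt hmpos) with h1 | h1
    · have hm : m = 1 := h1.symm
      subst hm
      rw [h.1]; simp
    · obtain ⟨ℓ, hℓ, m', rfl⟩ : ∃ ℓ, ℓ.Prime ∧ ∃ m', m = ℓ * m' := by
        have := Nat.exists_prime_and_dvd (n := m) (by omega)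
        obtain ⟨ℓ, hℓ, m', hm'⟩ := this
        exact ⟨ℓ, hℓ, m', hm'⟩
      have hm'pos : 0 < m' := by
        rcases Nat.eq_zero_or_pos m' with rfl | h'
        · simp at hmpos
        · exact h'
      have hm'lt : m' < ℓ * m' := by
        have := hℓ.one_lt
        nlinarith
      have hℓn : ¬ ℓ ∣ n := by
        intro hd
        have : ℓ ∣ Nat.gcd (ℓ * m') n := Nat.dvd_gcd (dvd_mul_right _ _) hd
        rw [hmn] at this
        exact hℓ.one_lt.ne' (Nat.dvd_one.mp this)
      have hm'n : m'.Coprime n := Nat.Coprime.coprime_mul_left hmn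
      by_cases hd : ℓ ∣ m'
      · obtain ⟨m'', rfl⟩ := hd
        have hm''pos : 0 < m'' := by
          rcases Nat.eq_zero_or_pos m'' with rfl | h'
          · simp at hm'pos
          · exact h'
        have hm''lt : m'' < ℓ * (ℓ * m'') := by
          have := hℓ.one_lt
          nlinarith
        have hm''n : m''.Coprime n := Nat.Coprime.coprime_mul_left hm'n
        have e1 : a (ℓ * (ℓ * m'') * n) = a ℓ * a (ℓ * (m'' * n)) - e ℓ * a (m'' * n) := by
          have := eig_prime_mul_mul h hℓ (m'' * n)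
          rw [← this]; congr 1; ring
        have e2 : a (ℓ * (m'' * n)) = a (ℓ * m'') * a n := by
          have := ih (ℓ * m'') hm'lt n hm'n
          rw [← this]; congr 1; ring
        rw [e1, e2, ih m'' hm''lt n hm''n, eig_prime_mul_mul h hℓ m'']
        ring
      · have hd' : ¬ ℓ ∣ m' * n := by
          intro hd'
          rcases (Nat.Prime.dvd_mul hℓ).mp hd' with h' | h'
          · exact hd h'
          · exact hℓn h'
        have e1 : a (ℓ * m' * n) = a ℓ * a (m' * n) := by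
          have := eig_prime_mul_of_not_dvd h hℓ hd'
          rw [← this]; congr 1; ring
        rw [e1, ih m' hm'lt n hm'n, eig_prime_mul_of_not_dvd h hℓ hd]
        ring

theorem eig_prime_pow {e a : ℕ → R} (h : FormalHecke.IsEigensystem e a) {ℓ : ℕ} (hℓ : ℓ.Prime)
    (r : ℕ) : a (ℓ ^ (r + 2)) = a ℓ * a (ℓ ^ (r + 1)) - e ℓ * a (ℓ ^ r) := by
  have := eig_prime_mul_mul h hℓ (ℓ ^ r)
  have e1 : ℓ ^ (r + 2) = ℓ * (ℓ * ℓ ^ r) := by ring
  have e2 : ℓ ^ (r + 1) = ℓ * ℓ ^ r := by ring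
  rw [e1, e2, this]

theorem isRecursive_of_isEigensystem {e a : ℕ → R} (h : FormalHecke.IsEigensystem e a) :
    FormalHecke.IsRecursive e a :=
  ⟨h.1, eig_mul_of_coprime h, fun _ r hℓ => eig_prime_pow h hℓ r⟩

theorem isNormalizedEigenform_of_isEigensystem {N : ℕ}
    (f : CuspForm (CongruenceSubgroup.Gamma0 N) 2)
    (h : FormalHecke.IsEigensystem (fun ℓ : ℕ => if ℓ ∣ N then (0 : ℂ) else (ℓ : ℂ))
      (fun n : ℕ => ModularFormClass.qCoeff f n)) :
    f.IsNormalizedEigenform := by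
  have hrec := isRecursive_of_isEigensystem h
  refine ⟨hrec.1, hrec.2.1, ?_, ?_⟩
  · intro p r hp hpN
    have := hrec.2.2 p r hp
    simp only [if_neg hpN] at this
    exact this
  · intro p r hp hpN
    have := hrec.2.2 p r hp
    simp only [if_pos hpN, zero_mul, sub_zero] at this
    exact this

end Fermat.Agent.S49.Recursive
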