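import Mathlib
import Fermat.Prelude.Def_FormalHecke_Eigensystem
import Fermat.Prelude.Def_FLTPrelim_Modularity
import Fermat.Prelude.Def_ModularForm_HeckeOperatorForms
import Fermat.Prelude.Def_CuspForm_HeckeAlgebra
import Fermat.Prelude.Thm_ModularFormClass_qCoeff_heckeT
import Fermat.Prelude.Thm_ModularFormClass_qCoeff_heckeU
import Fermat.Prelude.Thm_CongruenceSubgroup_one_mem_strictPeriods_Gamma0
import Fermat.Agent.S49.Recursive

set_option autoImplicit false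

open CongruenceSubgroup UpperHalfPlane

namespace Fermat.Agent.S49.Eigenvector

theorem qCoeff_smul {N : ℕ} {k : ℤ} (c : ℂ) (f : CuspForm (Gamma0 N) k) (n : ℕ) :
    ModularFormClass.qCoeff (⇑(c • f)) n = c * ModularFormClass.qCoeff f n := by
  unfold ModularFormClass.qCoeff
  rw [FunLike.coe_smul,
    ModularForm.qExpansion_smul one_pos (CongruenceSubgroup.one_mem_strictPeriods_Gamma0 N) c f]
  simp

theorem qCoeff_zero_eq {N : ℕ} {k : ℤ} (f : CuspForm (Gamma0 N) k) :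
    ModularFormClass.qCoeff f 0 = 0 := by
  unfold ModularFormClass.qCoeff
  exact CuspFormClass.qExpansion_coeff_zero f one_pos
    (CongruenceSubgroup.one_mem_strictPeriods_Gamma0 N)

theorem eq_zero_of_qCoeff {N : ℕ} {k : ℤ} (f : CuspForm (Gamma0 N) k)
    (h : ∀ n, ModularFormClass.qCoeff f n = 0) : f = 0 := by
  have hΓ := CongruenceSubgroup.one_mem_strictPeriods_Gamma0 N
  have hcusp : Fact (IsCusp OnePoint.infty
      (Subgroup.map (Matrix.SpecialLinearGroup.mapGL ℝ) (Gamma0 N))) :=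
    ⟨Subgroup.isCusp_of_mem_strictPeriods one_pos hΓ⟩
  have h0 : qExpansion 1 f = 0 := by
    ext n
    simpa [ModularFormClass.qCoeff] using h n
  have h1 : (⇑f : ℍ → ℂ) = 0 :=
    (UpperHalfPlane.qExpansion_eq_zero_iff one_pos
      (SlashInvariantFormClass.periodic_comp_ofComplex f hΓ) (CuspFormClass.holo f)
      (ModularFormClass.bdd_at_infty f)).mp h0
  exact DFunLike.coe_injective (by simpa using h1)

theorem qCoeff_heckeTLin {N : ℕ} (k : ℤ) {p : ℕ} (hp : p.Prime) (hpN : ¬ p ∣ N)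
    (f : CuspForm (Gamma0 N) k) (n : ℕ) :
    ModularFormClass.qCoeff (CuspForm.heckeTLin k hp hpN f) n =
      ModularFormClass.qCoeff f (n * p) +
        if p ∣ n then (p : ℂ) ^ (k - 1) * ModularFormClass.qCoeff f (n / p) else 0 := by
  rw [CuspForm.coe_heckeTLin_apply,
    ModularFormClass.qCoeff_heckeT f (CongruenceSubgroup.one_mem_strictPeriods_Gamma0 N)
      hp.ne_zero n]
  rfl

theorem qCoeff_heckeULin {N : ℕ} [NeZero N] (k : ℤ) {p : ℕ} (hp : p ≠ 0) (hpN : p ∣ N)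
    (f : CuspForm (Gamma0 N) k) (n : ℕ) :
    ModularFormClass.qCoeff (CuspForm.heckeULin k hpN f) n =
      ModularFormClass.qCoeff f (n * p) := by
  rw [CuspForm.coe_heckeULin_apply,
    ModularFormClass.qCoeff_heckeU f (CongruenceSubgroup.one_mem_strictPeriods_Gamma0 N) hp n]
  rfl

theorem eigen_relation {N : ℕ} [NeZero N] (v : CuspForm (Gamma0 N) 2) (c : ℕ → ℂ)
    (hT : ∀ (ℓ : ℕ) (hℓ : ℓ.Prime) (hℓN : ¬ ℓ ∣ N), CuspForm.heckeTLin 2 hℓ hℓN v = c ℓ • v)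
    (hU : ∀ (q : ℕ) (_ : q.Prime) (hqN : q ∣ N), CuspForm.heckeULin 2 hqN v = c q • v)
    {ℓ : ℕ} (hℓ : ℓ.Prime) (n : ℕ) :
    ModularFormClass.qCoeff v (ℓ * n) + (if ℓ ∣ N then (0 : ℂ) else (ℓ : ℂ)) *
      (if ℓ ∣ n then ModularFormClass.qCoeff v (n / ℓ) else 0) =
      c ℓ * ModularFormClass.qCoeff v n := by
  by_cases hℓN : ℓ ∣ N
  · have h1 := qCoeff_heckeULin 2 hℓ.ne_zero hℓN v n
    rw [hU ℓ hℓ hℓN, qCoeff_smul] at h1
    rw [if_pos hℓN, zero_mul, add_zero, mul_comm ℓ n, h1]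
  · have h1 := qCoeff_heckeTLin 2 hℓ hℓN v n
    rw [hT ℓ hℓ hℓN, qCoeff_smul] at h1
    rw [if_neg hℓN, mul_comm ℓ n, h1]
    congr 1
    split_ifs <;> simp

theorem qCoeff_one_ne_zero {N : ℕ} [NeZero N] (v : CuspForm (Gamma0 N) 2) (hv : v ≠ 0)
    (c : ℕ → ℂ)
    (hT : ∀ (ℓ : ℕ) (hℓ : ℓ.Prime) (hℓN : ¬ ℓ ∣ N), CuspForm.heckeTLin 2 hℓ hℓN v = c ℓ • v)
    (hU : ∀ (q : ℕ) (_ : q.Prime) (hqN : q ∣ N), CuspForm.heckeULin 2 hqN v = c q • v) :
    ModularFormClass.qCoeff v 1 ≠ 0 := by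
  intro h1
  apply hv
  apply eq_zero_of_qCoeff
  intro n
  induction n using Nat.strong_induction_on with
  | _ n ih =>
    rcases Nat.eq_zero_or_pos n with rfl | hnpos
    · exact qCoeff_zero_eq v
    rcases Nat.eq_or_lt_of_le (Nat.succ_le_of_lt hnpos) with h1' | h1'
    · have hn : n = 1 := h1'.symm
      subst hn
      exact h1
    · obtain ⟨ℓ, hℓ, m, rfl⟩ : ∃ ℓ, ℓ.Prime ∧ ∃ m, n = ℓ * m := by
        obtain ⟨ℓ, hℓ, m, hm⟩ := Nat.exists_prime_and_dvd (n := n) (by omega)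
        exact ⟨ℓ, hℓ, m, hm⟩
      have hmpos : 0 < m := by
        rcases Nat.eq_zero_or_pos m with rfl | h'
        · simp at hnpos
        · exact h'
      have hmlt : m < ℓ * m := by
        have := hℓ.one_lt
        nlinarith
      have hrel := eigen_relation v c hT hU hℓ m
      rw [ih m hmlt, mul_zero] at hrel
      have hdiv : (if ℓ ∣ m then ModularFormClass.qCoeff (⇑v) (m / ℓ) else 0) = 0 := by
        split_ifs with hd
        · exact ih (m / ℓ) (lt_of_le_of_lt (Nat.div_le_self m ℓ) hmlt)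
        · rfl
      rw [hdiv, mul_zero, add_zero] at hrel
      exact hrel

theorem exists_normalized_eigenform {N : ℕ} [NeZero N] (v : CuspForm (Gamma0 N) 2) (hv : v ≠ 0)
    (c : ℕ → ℂ)
    (hT : ∀ (ℓ : ℕ) (hℓ : ℓ.Prime) (hℓN : ¬ ℓ ∣ N), CuspForm.heckeTLin 2 hℓ hℓN v = c ℓ • v)
    (hU : ∀ (q : ℕ) (_ : q.Prime) (hqN : q ∣ N), CuspForm.heckeULin 2 hqN v = c q • v) :
    ∃ f : CuspForm (Gamma0 N) 2, f.IsNormalizedEigenform ∧
      ∀ ℓ : ℕ, ℓ.Prime → ModularFormClass.qCoeff f ℓ = c ℓ := by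
  have hb1 := qCoeff_one_ne_zero v hv c hT hU
  refine ⟨(ModularFormClass.qCoeff v 1)⁻¹ • v, ?_, ?_⟩
  · apply Recursive.isNormalizedEigenform_of_isEigensystem
    refine ⟨?_, ?_⟩
    · show ModularFormClass.qCoeff (⇑((ModularFormClass.qCoeff v 1)⁻¹ • v)) 1 = 1
      rw [qCoeff_smul, inv_mul_cancel₀ hb1]
    · intro ℓ hℓ n
      show ModularFormClass.qCoeff (⇑((ModularFormClass.qCoeff v 1)⁻¹ • v)) (ℓ * n) +
        (if ℓ ∣ N then (0 : ℂ) else (ℓ : ℂ)) *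
          (if ℓ ∣ n then ModularFormClass.qCoeff (⇑((ModularFormClass.qCoeff v 1)⁻¹ • v)) (n / ℓ)
            else 0) =
        ModularFormClass.qCoeff (⇑((ModularFormClass.qCoeff v 1)⁻¹ • v)) ℓ *
          ModularFormClass.qCoeff (⇑((ModularFormClass.qCoeff v 1)⁻¹ • v)) n
      have hrel := eigen_relation v c hT hU hℓ n
      have hrel1 := eigen_relation v c hT hU hℓ 1
      have hnd : ¬ ℓ ∣ 1 := fun hd => hℓ.one_lt.ne' (Nat.dvd_one.mp hd)
      rw [if_neg hnd, mul_zero, add_zero, mul_one] at hrel1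
      simp only [qCoeff_smul]
      rw [hrel1]
      have : (ModularFormClass.qCoeff (⇑v) 1)⁻¹ * ModularFormClass.qCoeff (⇑v) (ℓ * n) +
          (if ℓ ∣ N then (0 : ℂ) else (ℓ : ℂ)) *
            (if ℓ ∣ n then (ModularFormClass.qCoeff (⇑v) 1)⁻¹ *
              ModularFormClass.qCoeff (⇑v) (n / ℓ) else 0) =
          (ModularFormClass.qCoeff (⇑v) 1)⁻¹ * (ModularFormClass.qCoeff v (ℓ * n) +
            (if ℓ ∣ N then (0 : ℂ) else (ℓ : ℂ)) *
              (if ℓ ∣ n then ModularFormClass.qCoeff v (n / ℓ) else 0)) := by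
        split_ifs <;> ring
      rw [this, hrel]
      field_simp
  · intro ℓ hℓ
    have hrel1 := eigen_relation v c hT hU hℓ 1
    have hnd : ¬ ℓ ∣ 1 := fun hd => hℓ.one_lt.ne' (Nat.dvd_one.mp hd)
    rw [if_neg hnd, mul_zero, add_zero, mul_one] at hrel1
    rw [qCoeff_smul, hrel1]
    field_simp

theorem exists_normalized_eigenform_of_character {N : ℕ} [NeZero N]
    (v : CuspForm (Gamma0 N) 2) (hv : v ≠ 0) (ψ : CuspForm.heckeAlgebra N 2 ∅ →+* ℂ)
    (hψ : ∀ t : CuspForm.heckeAlgebra N 2 ∅,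
      (t : Module.End ℂ (CuspForm (Gamma0 N) 2)) v = ψ t • v) :
    ∃ f : CuspForm (Gamma0 N) 2, f.IsNormalizedEigenform ∧
      ∀ (ℓ : ℕ) (hℓ : ℓ.Prime) (hℓN : ¬ ℓ ∣ N),
        ModularFormClass.qCoeff f ℓ = ψ (CuspForm.heckeAlgebra.T hℓ hℓN (Set.notMem_empty ℓ)) := by
  classical
  let c : ℕ → ℂ := fun ℓ =>
    if hℓ : ℓ.Prime then
      if hℓN : ℓ ∣ N then ψ (CuspForm.heckeAlgebra.U hℓ hℓN (Set.notMem_empty ℓ))
      else ψ (CuspForm.heckeAlgebra.T hℓ hℓN (Set.notMem_empty ℓ))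
    else 0
  have hT : ∀ (ℓ : ℕ) (hℓ : ℓ.Prime) (hℓN : ¬ ℓ ∣ N),
      CuspForm.heckeTLin 2 hℓ hℓN v = c ℓ • v := by
    intro ℓ hℓ hℓN
    have := hψ (CuspForm.heckeAlgebra.T hℓ hℓN (Set.notMem_empty ℓ))
    simp only [CuspForm.heckeAlgebra.coe_T] at this
    rw [this]
    simp [c, hℓ, hℓN]
  have hU : ∀ (q : ℕ) (_ : q.Prime) (hqN : q ∣ N), CuspForm.heckeULin 2 hqN v = c q • v := by
    intro q hq hqN
    have := hψ (CuspForm.heckeAlgebra.U hq hqN (Set.notMem_empty q))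
    simp only [CuspForm.heckeAlgebra.coe_U] at this
    rw [this]
    simp [c, hq, hqN]
  obtain ⟨f, hf, hfc⟩ := exists_normalized_eigenform v hv c hT hU
  refine ⟨f, hf, ?_⟩
  intro ℓ hℓ hℓN
  rw [hfc ℓ hℓ]
  simp [c, hℓ, hℓN]

end Fermat.Agent.S49.Eigenvector
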