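import Mathlib

set_option autoImplicit false

namespace Fermat.Agent.S49

theorem exists_maximal_over {T : Type*} [CommRing T] (ψ : T →+* ℂ)
    (hint : ∀ t, IsIntegral ℤ (ψ t)) (𝔪 : Ideal T) [h𝔪 : 𝔪.IsMaximal]
    (hker : RingHom.ker ψ ≤ 𝔪) :
    ∃ (ψ' : T →+* integralClosure ℤ ℂ) (𝔪' : Ideal (integralClosure ℤ ℂ)),
      𝔪'.IsMaximal ∧ (∀ t, (ψ' t : ℂ) = ψ t) ∧ ∀ t ∈ 𝔪, ψ' t ∈ 𝔪' := by
  let ψ' : T →+* integralClosure ℤ ℂ := ψ.codRestrict (integralClosure ℤ ℂ) hint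
  let _ : Algebra T (integralClosure ℤ ℂ) := ψ'.toAlgebra
  have hint' : Algebra.IsIntegral T (integralClosure ℤ ℂ) := by
    refine ⟨fun x => ?_⟩
    have hx : IsIntegral ℤ x := Algebra.IsIntegral.isIntegral x
    exact hx.tower_top
  have hker' : RingHom.ker (algebraMap T (integralClosure ℤ ℂ)) ≤ 𝔪 := by
    intro t ht
    apply hker
    have h1 : ψ' t = 0 := ht
    have h2 : (ψ' t : ℂ) = 0 := by rw [h1]; rfl
    exact h2
  obtain ⟨𝔪', h𝔪', hcomap⟩ := Ideal.exists_ideal_over_maximal_of_isIntegral 𝔪 hker'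
  refine ⟨ψ', 𝔪', h𝔪', fun t => rfl, fun t ht => ?_⟩
  have h3 : t ∈ 𝔪'.comap (algebraMap T (integralClosure ℤ ℂ)) := by rw [hcomap]; exact ht
  exact h3

end Fermat.Agent.S49
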