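import Fermat.Agent.S49.PartC
import Fermat.Prelude.Def_CuspForm_HeckeAlgebra

set_option autoImplicit false

open CongruenceSubgroup

namespace Fermat.Agent.S49.PartCHecke

/-- Specialisation of `PartC.exists_eigen_character` to the Prelude Hecke algebra. -/
theorem exists_eigen_character_hecke {N : ℕ} [NeZero N] (k : ℤ) (S : Set ℕ)
    [FiniteDimensional ℂ (CuspForm (Gamma0 N) k)] [Nontrivial (CuspForm (Gamma0 N) k)]
    (m : Ideal (CuspForm.heckeAlgebra N k S)) [m.IsPrime] :
    ∃ (ψ : CuspForm.heckeAlgebra N k S →+* ℂ) (v : CuspForm (Gamma0 N) k), v ≠ 0 ∧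
      (∀ t : CuspForm.heckeAlgebra N k S,
        (t : Module.End ℂ (CuspForm (Gamma0 N) k)) v = ψ t • v) ∧
      RingHom.ker ψ ≤ m := by
  refine Fermat.Agent.S49.PartC.exists_eigen_character
    (K := ℂ) (A := CuspForm.heckeAlgebra N k S) (V := CuspForm (Gamma0 N) k)
    (CuspForm.heckeAlgebra N k S).val.toRingHom m ?_
  intro t ht
  have h0 : t = 0 := Subtype.ext ht
  rw [h0]
  exact m.zero_mem

end Fermat.Agent.S49.PartCHecke
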