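import Mathlib

set_option autoImplicit false

namespace Fermat.Agent.S49

theorem exists_eigen_ker_le {T V : Type*} [CommRing T] [AddCommGroup V] [Module ℂ V]
    [FiniteDimensional ℂ V] [Nontrivial V] (ρ : T →+* Module.End ℂ V)
    (hρ : Function.Injective ρ) (𝔪 : Ideal T) [h𝔪 : 𝔪.IsPrime] :
    ∃ (ψ : T →+* ℂ) (v : V), v ≠ 0 ∧ (∀ t, ρ t v = ψ t • v) ∧ RingHom.ker ψ ≤ 𝔪 := by
  classical
  let P : Submodule ℂ V → Prop := fun W =>
    W ≠ ⊥ ∧ (∀ t, ∀ w ∈ W, ρ t w ∈ W) ∧ (∀ t, (∀ w ∈ W, ρ t w = 0) → t ∈ 𝔪)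
  have hPtop : P ⊤ := by
    refine ⟨top_ne_bot, fun _ _ _ => Submodule.mem_top, fun t ht => ?_⟩
    have h0 : ρ t = 0 := LinearMap.ext fun w => ht w Submodule.mem_top
    have h1 : t = 0 := hρ (by rw [h0, map_zero])
    rw [h1]; exact 𝔪.zero_mem
  obtain ⟨W, ⟨hWne, hWstab, hWann⟩, hWmin⟩ := exists_minimal_of_wellFoundedLT P ⟨⊤, hPtop⟩
  have hcomm : ∀ s t w, ρ s (ρ t w) = ρ t (ρ s w) := by
    intro s t w
    have h2 : ρ s * ρ t = ρ t * ρ s := by rw [← map_mul, ← map_mul, mul_comm]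
    exact congrArg (fun φ : Module.End ℂ V => φ w) h2
  have key : ∀ t, ∃ c : ℂ, ∀ w ∈ W, ρ t w = c • w := by
    intro t
    let f : Module.End ℂ W := (ρ t).restrict (hWstab t)
    have : Nontrivial W := Submodule.nontrivial_iff_ne_bot.mpr hWne
    obtain ⟨c, hc⟩ := Module.End.exists_eigenvalue f
    obtain ⟨x, hx⟩ := hc.exists_hasEigenvector
    refine ⟨c, ?_⟩
    by_contra hcon
    push Not at hcon
    obtain ⟨w₀, hw₀W, hw₀⟩ := hcon
    let g : Module.End ℂ V := ρ t - c • (1 : Module.End ℂ V)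
    have hg : ∀ w, g w = ρ t w - c • w := fun w => by
      simp [g]
    have hgcomm : ∀ s w, g (ρ s w) = ρ s (g w) := by
      intro s w
      rw [hg, hg, map_sub, map_smul, hcomm t s w]
    have hgW : ∀ w ∈ W, g w ∈ W := fun w hw => by
      rw [hg]; exact W.sub_mem (hWstab t w hw) (W.smul_mem c hw)
    have hgx : g (x : V) = 0 := by
      have h3 := hx.apply_eq_smul
      have h4 : ρ t (x : V) = c • (x : V) := by
        have := congrArg (Subtype.val) h3
        simpa [f] using this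
      rw [hg, h4, sub_self]
    have hx0 : (x : V) ≠ 0 := fun h => hx.2 (Subtype.ext h)
    have hgw₀ : g w₀ ≠ 0 := by
      rw [hg]; exact sub_ne_zero.mpr hw₀
    -- first auxiliary subspace
    let W' : Submodule ℂ V := W ⊓ LinearMap.ker g
    have hW'P : ¬ P W' := by
      intro hP
      have hle : W ≤ W' := hWmin hP inf_le_left
      exact hgw₀ (LinearMap.mem_ker.mp (hle hw₀W).2)
    have hW'1 : W' ≠ ⊥ := fun h => hx0 (by
      have : (x : V) ∈ W' := ⟨x.2, LinearMap.mem_ker.mpr hgx⟩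
      rw [h] at this
      exact (Submodule.mem_bot ℂ).mp this)
    have hW'2 : ∀ s, ∀ w ∈ W', ρ s w ∈ W' := by
      intro s w hw
      refine ⟨hWstab s w hw.1, LinearMap.mem_ker.mpr ?_⟩
      rw [hgcomm, LinearMap.mem_ker.mp hw.2, map_zero]
    have hA : ∃ A, (∀ w ∈ W', ρ A w = 0) ∧ A ∉ 𝔪 := by
      by_contra hno
      push Not at hno
      exact hW'P ⟨hW'1, hW'2, hno⟩
    -- second auxiliary subspace
    let W'' : Submodule ℂ V := W.map g
    have hW''le : W'' ≤ W := by
      rintro _ ⟨w, hw, rfl⟩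
      exact hgW w hw
    have hW''P : ¬ P W'' := by
      intro hP
      have hle : W ≤ W'' := hWmin hP hW''le
      let g' : Module.End ℂ W := g.restrict hgW
      have hsurj : Function.Surjective g' := by
        intro w
        obtain ⟨u, hu, huw⟩ := hle w.2
        exact ⟨⟨u, hu⟩, Subtype.ext huw⟩
      have hinj : Function.Injective g' := LinearMap.injective_iff_surjective.mpr hsurj
      have : g' x = g' 0 := by
        rw [map_zero]
        exact Subtype.ext hgx
      exact hx.2 (hinj this)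
    have hW''1 : W'' ≠ ⊥ := fun h => hgw₀ (by
      have : g w₀ ∈ W'' := ⟨w₀, hw₀W, rfl⟩
      rw [h] at this
      exact (Submodule.mem_bot ℂ).mp this)
    have hW''2 : ∀ s, ∀ w ∈ W'', ρ s w ∈ W'' := by
      rintro s _ ⟨w, hw, rfl⟩
      exact ⟨ρ s w, hWstab s w hw, hgcomm s w⟩
    have hB : ∃ B, (∀ w ∈ W'', ρ B w = 0) ∧ B ∉ 𝔪 := by
      by_contra hno
      push Not at hno
      exact hW''P ⟨hW''1, hW''2, hno⟩
    obtain ⟨A, hA0, hAm⟩ := hA
    obtain ⟨B, hB0, hBm⟩ := hB
    have hAB : A * B ∈ 𝔪 := by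
      apply hWann
      intro w hw
      rw [map_mul, Module.End.mul_apply]
      apply hA0
      refine ⟨hWstab B w hw, LinearMap.mem_ker.mpr ?_⟩
      rw [hgcomm]
      exact hB0 _ ⟨w, hw, rfl⟩
    rcases h𝔪.mem_or_mem hAB with h | h
    · exact hAm h
    · exact hBm h
  choose χ hχ using key
  obtain ⟨v, hvW, hv0⟩ := Submodule.exists_mem_ne_zero_of_ne_bot hWne
  have inj : ∀ a b : ℂ, a • v = b • v → a = b := fun a b h => smul_left_injective ℂ hv0 h
  let ψ : T →+* ℂ :=
    { toFun := χ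
      map_one' := by
        apply inj
        rw [← hχ 1 v hvW, map_one, Module.End.one_apply, one_smul]
      map_mul' := by
        intro s t
        apply inj
        rw [← hχ (s * t) v hvW, map_mul, Module.End.mul_apply, hχ t v hvW, map_smul, hχ s v hvW,
          smul_smul, mul_comm]
      map_zero' := by
        apply inj
        rw [← hχ 0 v hvW, map_zero, LinearMap.zero_apply, zero_smul]
      map_add' := by
        intro s t
        apply inj
        rw [← hχ (s + t) v hvW, map_add, LinearMap.add_apply, hχ t v hvW, hχ s v hvW, add_smul] }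
  refine ⟨ψ, v, hv0, fun t => hχ t v hvW, ?_⟩
  intro t ht
  apply hWann t
  intro w hw
  have h5 : χ t = 0 := ht
  rw [hχ t w hw, h5, zero_smul]

end Fermat.Agent.S49
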