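import Mathlib
import Fermat.Prelude.Def_CuspForm_IntegralLattice
import Fermat.Prelude.Def_FormalHecke_Eigensystem
import Fermat.Prelude.Def_ModularForm_EisensteinChiNegThree
import Fermat.Prelude.Def_FLTPrelim_Modularity
import Fermat.Prelude.Def_CuspForm_HeckeAlgebra
import Fermat.Prelude.Def_CuspForm_IntegralStructure
import Fermat.Prelude.Thm_ModularFormClass_qCoeff_heckeT
import Fermat.Prelude.Thm_ModularFormClass_qCoeff_heckeU
import Fermat.Prelude.Thm_CongruenceSubgroup_one_mem_strictPeriods_Gamma0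
import Fermat.Prelude.Thm_CuspForm_mem_intLattice_of_mem_heckeAlgebra

set_option autoImplicit false
open CuspForm EisensteinWeightOne CongruenceSubgroup ModularFormClass

namespace Fermat.Agent.S49.PartB

/-! ### q-coefficients on `CuspForm (Gamma0 N) 2` -/

theorem qCoeff_add {N : ℕ} (f g : CuspForm (Gamma0 N) 2) (n : ℕ) :
    qCoeff (⇑(f + g)) n = qCoeff f n + qCoeff g n := by
  unfold qCoeff
  rw [FunLike.coe_add, ModularForm.qExpansion_add one_pos (one_mem_strictPeriods_Gamma0 N) f g]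
  simp

theorem qCoeff_smul {N : ℕ} (c : ℂ) (f : CuspForm (Gamma0 N) 2) (n : ℕ) :
    qCoeff (⇑(c • f)) n = c * qCoeff f n := by
  unfold qCoeff
  rw [FunLike.coe_smul, ModularForm.qExpansion_smul one_pos (one_mem_strictPeriods_Gamma0 N) c f]
  simp

theorem qCoeff_zero_form {N : ℕ} (n : ℕ) :
    qCoeff (⇑(0 : CuspForm (Gamma0 N) 2)) n = 0 := by
  unfold qCoeff
  rw [FunLike.coe_zero, UpperHalfPlane.qExpansion_zero]
  simp

theorem qCoeff_zero {N : ℕ} (f : CuspForm (Gamma0 N) 2) :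
    qCoeff (⇑f) 0 = 0 := by
  unfold qCoeff
  exact CuspFormClass.qExpansion_coeff_zero f one_pos (one_mem_strictPeriods_Gamma0 N)

theorem qCoeff_neg {N : ℕ} (f : CuspForm (Gamma0 N) 2) (n : ℕ) :
    qCoeff (⇑(-f)) n = -qCoeff f n := by
  have h := qCoeff_smul (-1 : ℂ) f n
  simpa using h

theorem qCoeff_sub {N : ℕ} (f g : CuspForm (Gamma0 N) 2) (n : ℕ) :
    qCoeff (⇑(f - g)) n = qCoeff f n - qCoeff g n := by
  rw [sub_eq_add_neg, qCoeff_add, qCoeff_neg, sub_eq_add_neg]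

theorem qCoeff_heckeTLin {N : ℕ} {p : ℕ} (hp : p.Prime) (hpN : ¬ p ∣ N)
    (f : CuspForm (Gamma0 N) 2) (n : ℕ) :
    qCoeff (⇑(CuspForm.heckeTLin 2 hp hpN f)) n
      = qCoeff f (n * p) + if p ∣ n then (p : ℂ) * qCoeff f (n / p) else 0 := by
  rw [CuspForm.coe_heckeTLin_apply,
    ModularFormClass.qCoeff_heckeT f (one_mem_strictPeriods_Gamma0 N) hp.ne_zero n,
    ModularForm.coeffHeckeT_apply]
  norm_num

theorem qCoeff_heckeULin {N : ℕ} [NeZero N] {p : ℕ} (hp : p ≠ 0) (hpN : p ∣ N)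
    (f : CuspForm (Gamma0 N) 2) (n : ℕ) :
    qCoeff (⇑(CuspForm.heckeULin 2 hpN f)) n = qCoeff f (n * p) := by
  rw [CuspForm.coe_heckeULin_apply,
    ModularFormClass.qCoeff_heckeU f (one_mem_strictPeriods_Gamma0 N) hp n,
    ModularForm.coeffHeckeU_apply]

/-- Elements of the integral lattice have integral `q`-coefficients. -/
theorem qCoeff_int_of_mem_intLattice {N : ℕ} {f : CuspForm (Gamma0 N) 2}
    (hf : f ∈ CuspForm.intLattice N 2) (n : ℕ) : ∃ m : ℤ, qCoeff f n = (m : ℂ) := by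
  unfold CuspForm.intLattice at hf
  induction hf using Submodule.span_induction with
  | mem x hx => exact hx n
  | zero => exact ⟨0, by rw [qCoeff_zero_form]; simp⟩
  | add x y _ _ hx hy =>
    obtain ⟨a, ha⟩ := hx
    obtain ⟨b, hb⟩ := hy
    exact ⟨a + b, by rw [qCoeff_add, ha, hb]; push_cast; ring⟩
  | smul c x _ hx =>
    obtain ⟨a, ha⟩ := hx
    refine ⟨c * a, ?_⟩
    rw [← Int.cast_smul_eq_zsmul ℂ c x, qCoeff_smul, ha]
    push_cast; ring

theorem mem_intLattice_of_qCoeff_int {N : ℕ} {f : CuspForm (Gamma0 N) 2}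
    (hf : ∀ n : ℕ, ∃ m : ℤ, qCoeff f n = (m : ℂ)) : f ∈ CuspForm.intLattice N 2 :=
  Submodule.subset_span hf

/-! ### The bridge product is congruent to `a` modulo 3 -/

theorem map_e1Chi3In_zmod3 :
    PowerSeries.map (Int.castRingHom (ZMod 3)) (e1Chi3In ℤ) = 1 := by
  ext n
  simp only [e1Chi3In, e1Chi3, PowerSeries.coeff_map, PowerSeries.coeff_mk, PowerSeries.coeff_one]
  split_ifs with h
  · simp
  · have h6 : (6 : ZMod 3) = 0 := by decide
    simp [h6]

theorem bridgeProduct_coeff_zmod3 (a : ℕ → ℤ) (n : ℕ) :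
    (((bridgeProduct a).coeff n : ℤ) : ZMod 3) = ((a n : ℤ) : ZMod 3) := by
  have h := congrArg (PowerSeries.coeff n)
    (show PowerSeries.map (Int.castRingHom (ZMod 3)) (bridgeProduct a)
        = PowerSeries.map (Int.castRingHom (ZMod 3)) (PowerSeries.mk a) by
      rw [bridgeProduct, map_mul, map_e1Chi3In_zmod3, mul_one])
  simpa using h

theorem chiNegThree_zmod3 (ℓ : ℕ) : ((chiNegThree ℓ : ℤ) : ZMod 3) = (ℓ : ZMod 3) := by
  have h : (ℓ : ZMod 3) = ((ℓ % 3 : ℕ) : ZMod 3) := by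
    rw [ZMod.natCast_mod]
  rw [h]
  unfold chiNegThree
  have h3 : ℓ % 3 < 3 := Nat.mod_lt _ (by norm_num)
  interval_cases (ℓ % 3) <;> simp
  decide

/-! ### The congruence ideal -/

theorem coe_intCast_heckeAlgebra_apply {N : ℕ} [NeZero N] (z : ℤ) (f : CuspForm (Gamma0 N) 2) :
    (((z : ℤ) : CuspForm.heckeAlgebra N 2 ∅) : Module.End ℂ (CuspForm (Gamma0 N) 2)) f
      = (z : ℂ) • f := by
  have h : (((z : ℤ) : CuspForm.heckeAlgebra N 2 ∅) : Module.End ℂ (CuspForm (Gamma0 N) 2))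
      = ((z : ℤ) : Module.End ℂ (CuspForm (Gamma0 N) 2)) := rfl
  rw [h, Int.cast_smul_eq_zsmul]
  simp

/-- The set of Hecke operators `t` such that `t f0` has all `q`-coefficients in `3ℤ`. -/
def congIdeal {N : ℕ} [NeZero N] (f0 : CuspForm (Gamma0 N) 2) :
    Ideal (CuspForm.heckeAlgebra N 2 ∅) where
  carrier := {t | ∀ n : ℕ, ∃ m : ℤ,
    qCoeff (⇑((t : Module.End ℂ (CuspForm (Gamma0 N) 2)) f0)) n = 3 * (m : ℂ)}
  add_mem' := by
    intro s t hs ht n
    obtain ⟨x, hx⟩ := hs n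
    obtain ⟨y, hy⟩ := ht n
    refine ⟨x + y, ?_⟩
    rw [Subalgebra.coe_add, LinearMap.add_apply, qCoeff_add, hx, hy]
    push_cast; ring
  zero_mem' := by
    intro n
    refine ⟨0, ?_⟩
    rw [Subalgebra.coe_zero, LinearMap.zero_apply, qCoeff_zero_form]
    simp
  smul_mem' := by
    intro s t ht n
    have hg : ((3 : ℂ)⁻¹ • ((t : Module.End ℂ (CuspForm (Gamma0 N) 2)) f0))
        ∈ CuspForm.intLattice N 2 := by
      apply mem_intLattice_of_qCoeff_int
      intro k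
      obtain ⟨m, hm⟩ := ht k
      exact ⟨m, by rw [qCoeff_smul, hm]; field_simp⟩
    have hsg := CuspForm.mem_intLattice_of_mem_heckeAlgebra (by norm_num : (1 : ℤ) ≤ 2) s.2 hg
    obtain ⟨m, hm⟩ := qCoeff_int_of_mem_intLattice hsg n
    refine ⟨m, ?_⟩
    rw [map_smul, qCoeff_smul] at hm
    rw [smul_eq_mul, Subalgebra.coe_mul, Module.End.mul_apply]
    rw [← hm]
    field_simp

theorem mem_congIdeal {N : ℕ} [NeZero N] (f0 : CuspForm (Gamma0 N) 2)
    (t : CuspForm.heckeAlgebra N 2 ∅) :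
    t ∈ congIdeal f0 ↔ ∀ n : ℕ, ∃ m : ℤ,
      qCoeff (⇑((t : Module.End ℂ (CuspForm (Gamma0 N) 2)) f0)) n = 3 * (m : ℂ) := Iff.rfl

/-- Piece (B): a maximal ideal of the Hecke algebra containing `3` and all `T_ℓ - a ℓ`. -/
theorem exists_maximal_ideal {N : ℕ} [NeZero N] {a : ℕ → ℤ}
    (heig : FormalHecke.IsEigensystem
      (fun ℓ => if ℓ ∣ N then 0 else ((chiNegThree ℓ : ℤ) : ℤ)) a)
    (hreal : CuspForm.IsLatticeRealized N a) :
    ∃ 𝔪 : Ideal (CuspForm.heckeAlgebra N 2 ∅), 𝔪.IsMaximal ∧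
      (3 : CuspForm.heckeAlgebra N 2 ∅) ∈ 𝔪 ∧
      ∀ (ℓ : ℕ) (hℓ : ℓ.Prime) (hℓN : ¬ ℓ ∣ N),
        CuspForm.heckeAlgebra.T hℓ hℓN (Set.notMem_empty _)
          - ((a ℓ : ℤ) : CuspForm.heckeAlgebra N 2 ∅) ∈ 𝔪 := by
  obtain ⟨f0, hf0, af, haf, hdiv⟩ := hreal
  have hmod : ∀ n, ((af n : ℤ) : ZMod 3) = ((a n : ℤ) : ZMod 3) := by
    intro n
    rw [← bridgeProduct_coeff_zmod3 a n]
    have h3 := (ZMod.intCast_zmod_eq_zero_iff_dvd (af n - (bridgeProduct a).coeff n) 3).mpr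
      (by exact_mod_cast hdiv n)
    push_cast at h3
    exact sub_eq_zero.mp h3
  have h30 : (3 : ZMod 3) = 0 := by decide
  have hJ : congIdeal f0 ≠ ⊤ := by
    intro htop
    have h1 : (1 : CuspForm.heckeAlgebra N 2 ∅) ∈ congIdeal f0 := by rw [htop]; trivial
    obtain ⟨m, hm⟩ := h1 1
    rw [Subalgebra.coe_one, Module.End.one_apply, ← haf 1] at hm
    have hm' : af 1 = 3 * m := by exact_mod_cast hm
    have h := hmod 1
    rw [hm', heig.1] at h
    push_cast at h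
    rw [h30, zero_mul] at h
    exact absurd h (by decide)
  obtain ⟨𝔪, h𝔪, hle⟩ := Ideal.exists_le_maximal _ hJ
  refine ⟨𝔪, h𝔪, hle ?_, fun ℓ hℓ hℓN => hle ?_⟩
  · intro n
    refine ⟨af n, ?_⟩
    have h : ((3 : CuspForm.heckeAlgebra N 2 ∅) : Module.End ℂ (CuspForm (Gamma0 N) 2)) f0
        = (3 : ℂ) • f0 := by
      have := coe_intCast_heckeAlgebra_apply (N := N) 3 f0
      simpa using this
    rw [h, qCoeff_smul, haf]
  · intro n
    rw [Subalgebra.coe_sub, LinearMap.sub_apply, CuspForm.heckeAlgebra.coe_T,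
      coe_intCast_heckeAlgebra_apply, qCoeff_sub, qCoeff_smul, qCoeff_heckeTLin,
      ← haf (n * ℓ), ← haf n]
    have key : (((af (n * ℓ) + (if ℓ ∣ n then (ℓ : ℤ) * af (n / ℓ) else 0) - a ℓ * af n : ℤ))
        : ZMod 3) = 0 := by
      have he := heig.2 ℓ hℓ n
      simp only [if_neg hℓN] at he
      have he' := congrArg (Int.cast : ℤ → ZMod 3) he
      push_cast at he'
      rw [chiNegThree_zmod3] at he'
      push_cast
      rw [hmod, hmod n, mul_comm n ℓ, ← he']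
      split_ifs with hd
      · rw [hmod]; ring
      · ring
    obtain ⟨m, hm⟩ := (ZMod.intCast_zmod_eq_zero_iff_dvd _ 3).mp key
    refine ⟨m, ?_⟩
    have hm' := congrArg (Int.cast : ℤ → ℂ) hm
    push_cast at hm'
    rw [← hm']
    split_ifs with hd
    · rw [← haf (n / ℓ)]
    · rfl

end Fermat.Agent.S49.PartB
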