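import Mathlib
import Fermat.Prelude.Def_CuspForm_IntegralLattice
import Fermat.Prelude.Def_CuspForm_HeckeAlgebra
import Fermat.Prelude.Def_CuspForm_IntegralStructure
import Fermat.Prelude.Thm_CuspForm_intLattice_fg
import Fermat.Prelude.Thm_CuspForm_mem_intLattice_of_mem_heckeAlgebra

set_option autoImplicit false

open CongruenceSubgroup

namespace Fermat.Agent.S49.Finiteness

theorem qIntegralSet_subset_intLattice (N : ℕ) :
    CuspForm.qIntegralSet N ⊆ (CuspForm.intLattice N 2 : Set (CuspForm (Gamma0 N) 2)) := by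
  intro f hf
  apply Submodule.subset_span
  intro n
  obtain ⟨m, hm⟩ := Subring.mem_bot.mp (hf n)
  exact ⟨m, hm.symm⟩

theorem hasIntegralStructure_of_hasIntegralBasis {N : ℕ} (h : CuspForm.HasIntegralBasis N) :
    CuspForm.HasIntegralStructure N 2 := by
  unfold CuspForm.HasIntegralStructure
  unfold CuspForm.HasIntegralBasis at h
  exact top_unique (h ▸ Submodule.span_mono (qIntegralSet_subset_intLattice N))

theorem exists_finset_span (N : ℕ) [NeZero N] (k : ℤ) (hs : CuspForm.HasIntegralStructure N k) :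
    ∃ s : Finset (CuspForm (Gamma0 N) k), (∀ f ∈ s, f ∈ CuspForm.intLattice N k) ∧
      Submodule.span ℤ (s : Set (CuspForm (Gamma0 N) k)) = CuspForm.intLattice N k ∧
      Submodule.span ℂ (s : Set (CuspForm (Gamma0 N) k)) = ⊤ := by
  obtain ⟨s, hs'⟩ := CuspForm.intLattice_fg N k
  refine ⟨s, ?_, hs', ?_⟩
  · intro f hf
    rw [← hs']
    exact Submodule.subset_span hf
  · unfold CuspForm.HasIntegralStructure at hs
    apply top_unique
    rw [← hs]
    apply Submodule.span_le.mpr
    intro f hf
    have hf' : f ∈ Submodule.span ℤ (s : Set (CuspForm (Gamma0 N) k)) := by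
      rw [hs']; exact hf
    exact Submodule.span_le_restrictScalars ℤ ℂ _ hf'

theorem finiteDimensional_of_hasIntegralStructure (N : ℕ) [NeZero N] (k : ℤ)
    (hs : CuspForm.HasIntegralStructure N k) :
    FiniteDimensional ℂ (CuspForm (Gamma0 N) k) := by
  obtain ⟨s, -, -, hs2⟩ := exists_finset_span N k hs
  exact ⟨⟨s, hs2⟩⟩

theorem finiteDimensional_of_hasIntegralBasis {N : ℕ} [NeZero N] (h : CuspForm.HasIntegralBasis N) :
    FiniteDimensional ℂ (CuspForm (Gamma0 N) 2) :=
  finiteDimensional_of_hasIntegralStructure N 2 (hasIntegralStructure_of_hasIntegralBasis h)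

theorem moduleFinite_heckeAlgebra_of_hasIntegralStructure (N : ℕ) [NeZero N] {k : ℤ} (hk : 1 ≤ k)
    (S : Set ℕ) (hs : CuspForm.HasIntegralStructure N k) :
    Module.Finite ℤ (CuspForm.heckeAlgebra N k S) := by
  obtain ⟨s, hs1, -, hs2⟩ := exists_finset_span N k hs
  have : Module.Finite ℤ (CuspForm.intLattice N k) :=
    Module.Finite.iff_fg.mpr (CuspForm.intLattice_fg N k)
  let φ : CuspForm.heckeAlgebra N k S →ₗ[ℤ] (s → CuspForm.intLattice N k) :=
    { toFun := fun t i => ⟨t.1 i.1, CuspForm.mem_intLattice_of_mem_heckeAlgebra hk t.2 (hs1 i.1 i.2)⟩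
      map_add' := by
        intro t t'
        funext i
        apply Subtype.ext
        simp
      map_smul' := by
        intro c t
        funext i
        apply Subtype.ext
        simp }
  have hφ : Function.Injective φ := by
    rw [injective_iff_map_eq_zero]
    intro t ht
    apply Subtype.ext
    have h0 : ∀ f ∈ (s : Set (CuspForm (Gamma0 N) k)), t.1 f = (0 : Module.End ℂ _) f := by
      intro f hf
      have := congrArg (fun x => (x ⟨f, hf⟩ : CuspForm (Gamma0 N) k)) ht
      simpa [φ] using this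
    have := LinearMap.ext_on hs2 h0
    simpa using this
  exact Module.Finite.of_injective φ hφ

theorem moduleFinite_heckeAlgebra_of_hasIntegralBasis {N : ℕ} [NeZero N] (S : Set ℕ)
    (h : CuspForm.HasIntegralBasis N) :
    Module.Finite ℤ (CuspForm.heckeAlgebra N 2 S) :=
  moduleFinite_heckeAlgebra_of_hasIntegralStructure N (by norm_num) S
    (hasIntegralStructure_of_hasIntegralBasis h)

theorem isIntegral_heckeAlgebra_of_hasIntegralBasis {N : ℕ} [NeZero N] (S : Set ℕ)
    (h : CuspForm.HasIntegralBasis N) :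
    Algebra.IsIntegral ℤ (CuspForm.heckeAlgebra N 2 S) :=
  have := moduleFinite_heckeAlgebra_of_hasIntegralBasis S h
  Algebra.IsIntegral.of_finite ℤ _

theorem finiteDimensional {N : ℕ} [NeZero N] (h : CuspForm.HasIntegralBasis N) :
    FiniteDimensional ℂ (CuspForm (CongruenceSubgroup.Gamma0 N) 2) :=
  finiteDimensional_of_hasIntegralBasis h

theorem isIntegral_heckeAlgebra {N : ℕ} [NeZero N] (h : CuspForm.HasIntegralBasis N)
    (t : CuspForm.heckeAlgebra N 2 ∅) : IsIntegral ℤ t :=
  (isIntegral_heckeAlgebra_of_hasIntegralBasis ∅ h).isIntegral t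

theorem isIntegral_heckeAlgebra' {N : ℕ} [NeZero N] (S : Set ℕ) (h : CuspForm.HasIntegralBasis N)
    (t : CuspForm.heckeAlgebra N 2 S) : IsIntegral ℤ t :=
  (isIntegral_heckeAlgebra_of_hasIntegralBasis S h).isIntegral t

end Fermat.Agent.S49.Finiteness
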