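import Mathlib

set_option autoImplicit false

namespace Fermat.Agent.S49.PartC

variable {K : Type*} [Field K] [IsAlgClosed K] {A : Type*} [CommRing A]
  {V : Type*} [AddCommGroup V] [Module K V] [FiniteDimensional K V]

/-- Auxiliary induction: a nonzero stable subspace whose annihilator lies in the prime `m`
contains a common eigenvector whose eigencharacter has kernel inside `m`. -/
theorem exists_eigen_character_aux (ρ : A →+* Module.End K V) (m : Ideal A) [m.IsPrime] :
    ∀ (n : ℕ) (W : Submodule K V), Module.finrank K W = n → W ≠ ⊥ →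
      (∀ t : A, ∀ w ∈ W, ρ t w ∈ W) →
      (∀ t : A, (∀ w ∈ W, ρ t w = 0) → t ∈ m) →
      ∃ (ψ : A →+* K) (v : V), v ≠ 0 ∧ (∀ t, ρ t v = ψ t • v) ∧ RingHom.ker ψ ≤ m := by
  intro n
  induction n using Nat.strong_induction_on with
  | _ n ih =>
  intro W hn hW hstab hann
  have hcomm : ∀ s t : A, ∀ x : V, ρ s (ρ t x) = ρ t (ρ s x) := by
    intro s t x
    have h1 : ρ s * ρ t = ρ t * ρ s := by rw [← map_mul, ← map_mul, mul_comm]
    exact congrArg (fun f => f x) h1
  by_cases hscal : ∀ t : A, ∃ c : K, ∀ w ∈ W, ρ t w = c • w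
  · -- every element acts by a scalar
    obtain ⟨v, hvW, hv0⟩ := (Submodule.ne_bot_iff W).1 hW
    choose c hc using hscal
    have hinj : ∀ a b : K, a • v = b • v → a = b := fun a b hab =>
      smul_left_injective K hv0 hab
    let ψ : A →+* K :=
      { toFun := c
        map_one' := by
          apply hinj
          rw [← hc 1 v hvW, map_one, one_smul]; rfl
        map_mul' := by
          intro s t
          apply hinj
          rw [← hc (s * t) v hvW, map_mul, Module.End.mul_apply, hc t v hvW, map_smul,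
            hc s v hvW, smul_smul, mul_comm]
        map_zero' := by
          apply hinj
          rw [← hc 0 v hvW, map_zero, zero_smul]; rfl
        map_add' := by
          intro s t
          apply hinj
          rw [← hc (s + t) v hvW, map_add, LinearMap.add_apply, hc s v hvW, hc t v hvW, add_smul] }
    refine ⟨ψ, v, hv0, fun t => hc t v hvW, ?_⟩
    intro t ht
    have ht0 : c t = 0 := ht
    apply hann
    intro w hw
    rw [hc t w hw, ht0, zero_smul]
  · -- some element `t` is not a scalar on `W`
    simp only [not_forall, not_exists] at hscal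
    obtain ⟨t, ht⟩ := hscal
    have : Nontrivial W := (Submodule.nontrivial_iff_ne_bot).2 hW
    let r : W →ₗ[K] W := (ρ t).restrict (hstab t)
    obtain ⟨μ, hμ⟩ := Module.End.exists_eigenvalue r
    obtain ⟨⟨x, hxW⟩, hx⟩ := hμ.exists_hasEigenvector
    have hx0 : x ≠ 0 := fun h => hx.2 (Subtype.ext h)
    have hxeig : ρ t x = μ • x := by
      have := hx.apply_eq_smul
      exact congrArg Subtype.val this
    let g : Module.End K V := ρ t - μ • (1 : Module.End K V)
    have hg : ∀ y, g y = ρ t y - μ • y := fun y => by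
      simp [g]
    have hgcomm : ∀ s : A, ∀ y : V, g (ρ s y) = ρ s (g y) := by
      intro s y
      rw [hg, hg, map_sub, map_smul, hcomm]
    have hgW : ∀ w ∈ W, g w ∈ W := fun w hw => by
      rw [hg]; exact W.sub_mem (hstab t w hw) (W.smul_mem μ hw)
    obtain ⟨w0, hw0W, hw0⟩ := ht μ
    have hgw0 : g w0 ≠ 0 := by
      rw [hg]; exact sub_ne_zero.2 hw0
    -- the two smaller stable subspaces
    let W1 : Submodule K V := W ⊓ LinearMap.ker g
    let W2 : Submodule K V := W.map g
    have hW1le : W1 ≤ W := inf_le_left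
    have hW2le : W2 ≤ W := by
      rintro _ ⟨w, hw, rfl⟩
      exact hgW w hw
    have hxW1 : x ∈ W1 :=
      Submodule.mem_inf.2 ⟨hxW, LinearMap.mem_ker.2 (by rw [hg, hxeig, sub_self])⟩
    have hW1ne : W1 ≠ ⊥ := fun h => hx0 (by simpa [h] using hxW1)
    have hW2ne : W2 ≠ ⊥ := fun h => hgw0 (by
      have : g w0 ∈ W2 := ⟨w0, hw0W, rfl⟩
      simpa [h] using this)
    have hW1lt : W1 < W := lt_of_le_of_ne hW1le (fun h => hgw0 (by
      have : w0 ∈ W1 := h ▸ hw0W
      exact LinearMap.mem_ker.1 (Submodule.mem_inf.1 this).2))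
    have hW2lt : W2 < W := by
      refine lt_of_le_of_ne hW2le (fun h => ?_)
      -- `g` restricted to `W` would be surjective, hence injective
      let gr : W →ₗ[K] W := g.restrict hgW
      have hsurj : Function.Surjective gr := by
        rintro ⟨y, hy⟩
        have hy' : y ∈ W2 := h ▸ hy
        obtain ⟨w, hw, rfl⟩ := hy'
        exact ⟨⟨w, hw⟩, Subtype.ext rfl⟩
      have hinj : Function.Injective gr := LinearMap.injective_iff_surjective.2 hsurj
      have h0 : gr ⟨x, hxW⟩ = gr 0 := by
        apply Subtype.ext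
        simp only [map_zero]
        show g x = 0
        rw [hg, hxeig, sub_self]
      exact hx0 (congrArg Subtype.val (hinj h0))
    have hW1stab : ∀ s : A, ∀ w ∈ W1, ρ s w ∈ W1 := fun s w hw =>
      Submodule.mem_inf.2 ⟨hstab s w (Submodule.mem_inf.1 hw).1, LinearMap.mem_ker.2 (by
        rw [hgcomm, LinearMap.mem_ker.1 (Submodule.mem_inf.1 hw).2, map_zero])⟩
    have hW2stab : ∀ s : A, ∀ w ∈ W2, ρ s w ∈ W2 := by
      rintro s _ ⟨w, hw, rfl⟩
      exact ⟨ρ s w, hstab s w hw, hgcomm s w⟩
    have hlt1 : Module.finrank K W1 < n := hn ▸ Submodule.finrank_lt_finrank_of_lt hW1lt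
    have hlt2 : Module.finrank K W2 < n := hn ▸ Submodule.finrank_lt_finrank_of_lt hW2lt
    by_cases h1 : ∀ s : A, (∀ w ∈ W1, ρ s w = 0) → s ∈ m
    · exact ih _ hlt1 W1 rfl hW1ne hW1stab h1
    by_cases h2 : ∀ s : A, (∀ w ∈ W2, ρ s w = 0) → s ∈ m
    · exact ih _ hlt2 W2 rfl hW2ne hW2stab h2
    simp only [not_forall, exists_prop] at h1 h2
    obtain ⟨a, ha, ham⟩ := h1
    obtain ⟨b, hb, hbm⟩ := h2
    exfalso
    have hab : a * b ∈ m := by
      apply hann
      intro w hw
      rw [map_mul, Module.End.mul_apply]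
      apply ha
      refine Submodule.mem_inf.2 ⟨hstab b w hw, LinearMap.mem_ker.2 ?_⟩
      rw [hgcomm]
      exact hb _ ⟨w, hw, rfl⟩
    rcases Ideal.IsPrime.mem_or_mem inferInstance hab with h | h
    · exact ham h
    · exact hbm h

/-- **Common eigenvector with controlled kernel.** Let `A` be a commutative ring acting on a
nonzero finite-dimensional vector space `V` over an algebraically closed field `K`, and let `m`
be a prime ideal of `A` containing the kernel of the action.  Then there are a ring homomorphism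
`ψ : A →+* K` with `ker ψ ≤ m` and a nonzero `v` with `t • v = ψ t • v` for all `t`. -/
theorem exists_eigen_character [Nontrivial V] (ρ : A →+* Module.End K V) (m : Ideal A)
    [m.IsPrime] (hker : RingHom.ker ρ ≤ m) :
    ∃ (ψ : A →+* K) (v : V), v ≠ 0 ∧ (∀ t, ρ t v = ψ t • v) ∧ RingHom.ker ψ ≤ m := by
  refine exists_eigen_character_aux ρ m _ ⊤ rfl top_ne_bot (fun _ _ _ => Submodule.mem_top) ?_
  intro t ht
  apply hker
  rw [RingHom.mem_ker]
  ext w
  simpa using ht w Submodule.mem_top

end Fermat.Agent.S49.PartC
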