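import Mathlib
import Fermat.Prelude.Def_CuspForm_HeckeAlgebra
import Fermat.Prelude.Def_FormalHecke_Eigensystem
import Fermat.Prelude.Def_FLTPrelim_Modularity
import Fermat.Prelude.Thm_ModularFormClass_qCoeff_heckeT
import Fermat.Prelude.Thm_ModularFormClass_qCoeff_heckeU
import Fermat.Prelude.Thm_CongruenceSubgroup_one_mem_strictPeriods_Gamma0

set_option autoImplicit false

open CongruenceSubgroup

namespace Fermat.Agent.S49.PartE

/-- `qCoeff` of a scalar multiple of a cusp form. -/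
theorem qCoeff_smul {N : ℕ} {k : ℤ} (c : ℂ) (f : CuspForm (Gamma0 N) k) (n : ℕ) :
    ModularFormClass.qCoeff (⇑(c • f)) n = c * ModularFormClass.qCoeff (⇑f) n := by
  unfold ModularFormClass.qCoeff
  rw [FunLike.coe_smul,
    ModularForm.qExpansion_smul one_pos (CongruenceSubgroup.one_mem_strictPeriods_Gamma0 N) c f]
  simp

/-- The constant `q`-coefficient of a cusp form vanishes. -/
theorem qCoeff_zero {N : ℕ} {k : ℤ} (f : CuspForm (Gamma0 N) k) :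
    ModularFormClass.qCoeff (⇑f) 0 = 0 := by
  unfold ModularFormClass.qCoeff
  exact CuspFormClass.qExpansion_coeff_zero f one_pos
    (CongruenceSubgroup.one_mem_strictPeriods_Gamma0 N)

/-- A cusp form all of whose `q`-coefficients vanish is zero. -/
theorem eq_zero_of_qCoeff_eq_zero {N : ℕ} {k : ℤ} (f : CuspForm (Gamma0 N) k)
    (h : ∀ n, ModularFormClass.qCoeff (⇑f) n = 0) : f = 0 := by
  have hΓ := CongruenceSubgroup.one_mem_strictPeriods_Gamma0 N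
  have hq : UpperHalfPlane.qExpansion 1 (⇑f) = 0 := by
    ext n
    simpa [ModularFormClass.qCoeff] using h n
  have : Fact (IsCusp OnePoint.infty
      (Subgroup.map (Matrix.SpecialLinearGroup.mapGL ℝ) (Gamma0 N))) :=
    ⟨Subgroup.isCusp_of_mem_strictPeriods one_pos hΓ⟩
  have h0 : (⇑f : UpperHalfPlane → ℂ) = 0 :=
    (UpperHalfPlane.qExpansion_eq_zero_iff one_pos
      (SlashInvariantFormClass.periodic_comp_ofComplex f hΓ) (ModularFormClass.holo f)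
      (ModularFormClass.bdd_at_infty f)).1 hq
  exact DFunLike.coe_injective h0

/-- Coefficient relation for an eigenvector of `T_ℓ`, `ℓ ∤ N`. -/
theorem qCoeff_of_heckeT_eigen {N : ℕ} {ℓ : ℕ} (hℓ : ℓ.Prime) (hℓN : ¬ ℓ ∣ N)
    (v : CuspForm (Gamma0 N) 2) (c : ℂ) (hv : CuspForm.heckeTLin 2 hℓ hℓN v = c • v) (n : ℕ) :
    ModularFormClass.qCoeff (⇑v) (n * ℓ) +
      (if ℓ ∣ n then (ℓ : ℂ) * ModularFormClass.qCoeff (⇑v) (n / ℓ) else 0) =
      c * ModularFormClass.qCoeff (⇑v) n := by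
  have h1 := ModularFormClass.qCoeff_heckeT (k := 2) v
    (CongruenceSubgroup.one_mem_strictPeriods_Gamma0 N) hℓ.ne_zero n
  rw [← CuspForm.coe_heckeTLin_apply 2 hℓ hℓN v, hv, qCoeff_smul] at h1
  rw [h1, ModularForm.coeffHeckeT_apply]
  norm_num

/-- Coefficient relation for an eigenvector of `U_q`, `q ∣ N`. -/
theorem qCoeff_of_heckeU_eigen {N : ℕ} [NeZero N] {q : ℕ} (hq : q.Prime) (hqN : q ∣ N)
    (v : CuspForm (Gamma0 N) 2) (c : ℂ) (hv : CuspForm.heckeULin 2 hqN v = c • v) (n : ℕ) :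
    ModularFormClass.qCoeff (⇑v) (n * q) = c * ModularFormClass.qCoeff (⇑v) n := by
  have h1 := ModularFormClass.qCoeff_heckeU (k := 2) v
    (CongruenceSubgroup.one_mem_strictPeriods_Gamma0 N) hq.ne_zero n
  rw [← CuspForm.coe_heckeULin_apply 2 hqN v, hv, qCoeff_smul] at h1
  rw [h1, ModularForm.coeffHeckeU_apply]

/-- A common eigenvector of all `T_ℓ`, `U_q` has `q`-coefficients satisfying the formal
Hecke relations up to the eigenvalues. -/
theorem exists_eigenvalue_relation {N : ℕ} [NeZero N] (ψ : CuspForm.heckeAlgebra N 2 ∅ →+* ℂ)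
    (v : CuspForm (Gamma0 N) 2)
    (hψ : ∀ t : CuspForm.heckeAlgebra N 2 ∅,
      (t : Module.End ℂ (CuspForm (Gamma0 N) 2)) v = ψ t • v) {ℓ : ℕ} (hℓ : ℓ.Prime) :
    ∃ c : ℂ, (∀ hℓN : ¬ ℓ ∣ N, c = ψ (CuspForm.heckeAlgebra.T hℓ hℓN (Set.notMem_empty _))) ∧
      ∀ n : ℕ, ModularFormClass.qCoeff (⇑v) (ℓ * n) +
        (if ℓ ∣ N then (0 : ℂ) else (ℓ : ℂ)) *
          (if ℓ ∣ n then ModularFormClass.qCoeff (⇑v) (n / ℓ) else 0) =
        c * ModularFormClass.qCoeff (⇑v) n := by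
  by_cases hℓN : ℓ ∣ N
  · refine ⟨ψ (CuspForm.heckeAlgebra.U hℓ hℓN (Set.notMem_empty _)),
      fun h => absurd hℓN h, fun n => ?_⟩
    have := qCoeff_of_heckeU_eigen hℓ hℓN v _
      (hψ (CuspForm.heckeAlgebra.U hℓ hℓN (Set.notMem_empty _))) n
    rw [if_pos hℓN, zero_mul, add_zero, mul_comm ℓ n]
    exact this
  · refine ⟨ψ (CuspForm.heckeAlgebra.T hℓ hℓN (Set.notMem_empty _)), fun _ => rfl, fun n => ?_⟩
    have := qCoeff_of_heckeT_eigen hℓ hℓN v _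
      (hψ (CuspForm.heckeAlgebra.T hℓ hℓN (Set.notMem_empty _))) n
    rw [if_neg hℓN, mul_comm ℓ n, ← this]
    congr 1
    split_ifs <;> simp

/-- A nonzero common eigenvector has nonzero first coefficient. -/
theorem qCoeff_one_ne_zero {N : ℕ} [NeZero N] (ψ : CuspForm.heckeAlgebra N 2 ∅ →+* ℂ)
    (v : CuspForm (Gamma0 N) 2) (hv : v ≠ 0)
    (hψ : ∀ t : CuspForm.heckeAlgebra N 2 ∅,
      (t : Module.End ℂ (CuspForm (Gamma0 N) 2)) v = ψ t • v) :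
    ModularFormClass.qCoeff (⇑v) 1 ≠ 0 := by
  intro h1
  apply hv
  apply eq_zero_of_qCoeff_eq_zero
  intro n
  induction n using Nat.strong_induction_on with
  | _ n ih =>
    rcases Nat.lt_or_ge n 2 with hn | hn
    · interval_cases n
      · exact qCoeff_zero v
      · exact h1
    · obtain ⟨ℓ, hℓ, m, rfl⟩ : ∃ ℓ, ℓ.Prime ∧ ∃ m, n = ℓ * m := by
        obtain ⟨ℓ, hℓ, m, hm⟩ := Nat.exists_prime_and_dvd (n := n) (by omega)
        exact ⟨ℓ, hℓ, m, hm⟩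
      have hmpos : 0 < m := by
        rcases Nat.eq_zero_or_pos m with rfl | h'
        · simp at hn
        · exact h'
      have hmlt : m < ℓ * m := by
        have := hℓ.one_lt
        nlinarith
      obtain ⟨c, -, hc⟩ := exists_eigenvalue_relation ψ v hψ hℓ
      have hrel := hc m
      have hdiv : m / ℓ < ℓ * m := lt_of_le_of_lt (Nat.div_le_self m ℓ) hmlt
      rw [ih m hmlt, ih (m / ℓ) hdiv] at hrel
      simpa using hrel

theorem exists_normalized {N : ℕ} [NeZero N] (ψ : CuspForm.heckeAlgebra N 2 ∅ →+* ℂ)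
    (v : CuspForm (CongruenceSubgroup.Gamma0 N) 2) (hv : v ≠ 0)
    (hψ : ∀ t : CuspForm.heckeAlgebra N 2 ∅,
      (t : Module.End ℂ (CuspForm (CongruenceSubgroup.Gamma0 N) 2)) v = ψ t • v) :
    ∃ f : CuspForm (CongruenceSubgroup.Gamma0 N) 2,
      FormalHecke.IsEigensystem (fun ℓ => if ℓ ∣ N then (0:ℂ) else (ℓ:ℂ))
        (fun n => ModularFormClass.qCoeff f n) ∧
      ∀ (ℓ : ℕ) (hℓ : ℓ.Prime) (hℓN : ¬ ℓ ∣ N),
        ModularFormClass.qCoeff f ℓ = ψ (CuspForm.heckeAlgebra.T hℓ hℓN (Set.notMem_empty _)) := by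
  have hb1 := qCoeff_one_ne_zero ψ v hv hψ
  set b : ℕ → ℂ := fun n => ModularFormClass.qCoeff (⇑v) n with hb
  have hf : ∀ n, ModularFormClass.qCoeff (⇑((b 1)⁻¹ • v)) n = (b 1)⁻¹ * b n :=
    fun n => qCoeff_smul _ v n
  -- the eigenvalue at `ℓ` is the `ℓ`-th coefficient of the normalised form
  have hcoeff : ∀ {ℓ : ℕ} (hℓ : ℓ.Prime) (c : ℂ),
      (∀ n : ℕ, b (ℓ * n) + (if ℓ ∣ N then (0 : ℂ) else (ℓ : ℂ)) *
          (if ℓ ∣ n then b (n / ℓ) else 0) = c * b n) → (b 1)⁻¹ * b ℓ = c := by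
    intro ℓ hℓ c hc
    have h := hc 1
    have hnd : ¬ ℓ ∣ 1 := fun h => hℓ.one_lt.ne' (Nat.dvd_one.mp h)
    rw [if_neg hnd, mul_zero, add_zero, mul_one] at h
    rw [h, mul_comm c, ← mul_assoc, inv_mul_cancel₀ hb1, one_mul]
  refine ⟨(b 1)⁻¹ • v, ⟨?_, ?_⟩, ?_⟩
  · show ModularFormClass.qCoeff (⇑((b 1)⁻¹ • v)) 1 = 1
    rw [hf 1, inv_mul_cancel₀ hb1]
  · intro ℓ hℓ n
    obtain ⟨c, -, hc⟩ := exists_eigenvalue_relation ψ v hψ hℓ
    show ModularFormClass.qCoeff (⇑((b 1)⁻¹ • v)) (ℓ * n) +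
        (if ℓ ∣ N then (0 : ℂ) else (ℓ : ℂ)) *
          (if ℓ ∣ n then ModularFormClass.qCoeff (⇑((b 1)⁻¹ • v)) (n / ℓ) else 0) =
        ModularFormClass.qCoeff (⇑((b 1)⁻¹ • v)) ℓ * ModularFormClass.qCoeff (⇑((b 1)⁻¹ • v)) n
    rw [hf, hf, hf, hf, hcoeff hℓ c hc]
    have h := hc n
    have : (b 1)⁻¹ * b (ℓ * n) + (if ℓ ∣ N then (0 : ℂ) else (ℓ : ℂ)) *
        (if ℓ ∣ n then (b 1)⁻¹ * b (n / ℓ) else 0) =
        (b 1)⁻¹ * (b (ℓ * n) + (if ℓ ∣ N then (0 : ℂ) else (ℓ : ℂ)) *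
          (if ℓ ∣ n then b (n / ℓ) else 0)) := by
      split_ifs <;> ring
    rw [this, h]
    ring
  · intro ℓ hℓ hℓN
    obtain ⟨c, hcψ, hc⟩ := exists_eigenvalue_relation ψ v hψ hℓ
    rw [hf, hcoeff hℓ c hc, hcψ hℓN]

end Fermat.Agent.S49.PartE
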